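import Fermat.Agent.PisotCriterion.Criterion

/-!
# Recurrent integers at bounded distance from `λ θ ^ n`

If `λ θ ^ n - a n` is bounded and the integers `a n` satisfy a monic rational recurrence, then
`θ` is an algebraic integer, its other conjugates lie in the closed unit disc and `λ ∈ ℚ(θ)`:
for a recurrence of least degree, any other root outside the disc gives a shorter one.
-/

set_option autoImplicit false

noncomputable section

open Finset Polynomial Filter Topology
open scoped IntermediateField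

namespace FA.DubickasGap

open FA.PisotCriterion

section normed

variable {𝕜 : Type*} [NormedField 𝕜]

theorem norm_shiftOp_le (f : 𝕜[X]) {s : ℕ → 𝕜} {B : ℝ} (hs : ∀ n, ‖s n‖ ≤ B) (n : ℕ) :
    ‖shiftOp f s n‖ ≤ ∑ j ∈ range (f.natDegree + 1), ‖f.coeff j‖ * B := by
  rw [shiftOp_apply]
  refine norm_sum_le_of_le _ fun j _ => ?_
  rw [norm_mul]
  exact mul_le_mul_of_nonneg_left (hs _) (norm_nonneg _)

/-- A bounded sequence which is eventually geometric with a ratio outside the closed disc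
vanishes. -/
theorem eventually_zero_of_bounded_geometric {u : ℕ → 𝕜} {β : 𝕜} {B : ℝ} (hβ : 1 < ‖β‖)
    (hu : ∀ n, ‖u n‖ ≤ B) (h : ∀ᶠ n in atTop, shiftOp (X - C β) u n = 0) :
    ∀ᶠ n in atTop, u n = 0 := by
  obtain ⟨N, hN⟩ := eventually_atTop.1 h
  refine eventually_atTop.2 ⟨N, fun n hn => ?_⟩
  have hstep : ∀ k, u (n + k) = β ^ k * u n := by
    intro k
    induction k with
    | zero => simp
    | succ k ih =>
      have h1 := hN (n + k) (le_add_right hn)
      rw [shiftOp_X_sub_C, sub_eq_zero] at h1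
      rw [← add_assoc, h1, ih, pow_succ']
      ring
  refine norm_le_zero_iff.1 (ge_of_tendsto'
    ((tendsto_pow_atTop_atTop_of_one_lt hβ).const_div_atTop B) fun k => ?_)
  rw [le_div_iff₀ (pow_pos (one_pos.trans hβ) k), mul_comm, ← norm_pow, ← norm_mul, ← hstep]
  exact hu _

end normed

/-- A monic recurrence over an extension field yields a monic rational one of no larger degree. -/
theorem exists_rat_annihilator {K : Type*} [Field K] [CharZero K] {g : K[X]} (hg : g.Monic)
    {a : ℕ → ℤ} (h : ∀ᶠ n in atTop, shiftOp g (fun k => (a k : K)) n = 0) :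
    ∃ P : ℚ[X], P.Monic ∧ P.natDegree ≤ g.natDegree ∧
      ∀ᶠ n in atTop, shiftOp P (fun k => (a k : ℚ)) n = 0 := by
  obtain ⟨φ, hφ⟩ := LinearMap.exists_leftInverse_of_injective (Algebra.linearMap ℚ K)
    (LinearMap.ker_eq_bot.2 (algebraMap ℚ K).injective)
  have hφ1 : φ 1 = 1 := by simpa using LinearMap.congr_fun hφ 1
  set P : ℚ[X] := ∑ j ∈ range (g.natDegree + 1), monomial j (φ (g.coeff j)) with hP
  have hcoeff : ∀ t, P.coeff t = if t < g.natDegree + 1 then φ (g.coeff t) else 0 := fun t => by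
    simp [hP, finsetSum_coeff, coeff_monomial]
  have hdeg : P.natDegree ≤ g.natDegree :=
    natDegree_le_iff_coeff_eq_zero.2 fun t ht => by rw [hcoeff, if_neg (by omega)]
  refine ⟨P, monic_of_natDegree_le_of_coeff_eq_one _ hdeg
    (by rw [hcoeff, if_pos (Nat.lt_succ_self _), hg.coeff_natDegree, hφ1]), hdeg, ?_⟩
  filter_upwards [h] with n hn
  rw [shiftOp_apply_of_lt (Nat.lt_succ_of_le hdeg)]
  rw [shiftOp_apply] at hn
  have h2 := congrArg φ hn
  rw [map_sum, map_zero] at h2
  rw [← h2]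
  refine Finset.sum_congr rfl fun j hj => ?_
  rw [hcoeff, if_pos (mem_range.1 hj), mul_comm (g.coeff j), ← zsmul_eq_mul, map_zsmul,
    zsmul_eq_mul, mul_comm]

variable {θ lam B : ℝ} {a : ℕ → ℤ}

/-- **Bounded form of Pisot's criterion.** -/
theorem pisot_or_salem_of_bounded (hθ : 1 < θ) (hlam : lam ≠ 0)
    (hB : ∀ n, |lam * θ ^ n - a n| ≤ B) {R : ℚ[X]} (hR : R.Monic)
    (h : ∀ᶠ n in atTop, shiftOp R (fun k => (a k : ℚ)) n = 0) :
    IsIntegral ℤ θ ∧ (∀ z : ℂ, aeval z (minpoly ℤ θ) = 0 → z ≠ (θ : ℂ) → ‖z‖ ≤ 1) ∧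
      lam ∈ ℚ⟮θ⟯ := by
  classical
  have hint : IsIntegral ℤ θ := by
    refine isIntegral_of_isLittleO hθ hlam (squeeze_zero_norm (fun n => ?_)
      ((tendsto_pow_atTop_atTop_of_one_lt hθ).const_div_atTop B)) hR h
    have hθn : (0 : ℝ) < θ ^ n := pow_pos (by linarith) n
    rw [Real.norm_eq_abs, abs_div, abs_of_pos hθn]
    exact div_le_div_of_nonneg_right (hB n) hθn.le
  -- a recurrence of least degree
  have hex : ∃ d, ∃ Q : ℚ[X], Q.Monic ∧ Q.natDegree = d ∧
      ∀ᶠ n in atTop, shiftOp Q (fun k => (a k : ℚ)) n = 0 := ⟨_, R, hR, rfl, h⟩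
  obtain ⟨Q, hQ, hQd, hQa⟩ := Nat.find_spec hex
  have hmin : ∀ P : ℚ[X], P.Monic → (∀ᶠ n in atTop, shiftOp P (fun k => (a k : ℚ)) n = 0) →
      Q.natDegree ≤ P.natDegree := fun P hP hPa => by
    rw [hQd]; exact Nat.find_le ⟨P, hP, rfl, hPa⟩
  set e : ℕ → ℝ := fun n => lam * θ ^ n - a n with he
  have ha : (fun n => (a n : ℝ)) = (fun n => lam * θ ^ n) - e := by
    funext n; simp [he]
  set f := Q.map (algebraMap ℚ ℝ) with hf
  have hfe : ∀ᶠ n in atTop, f.eval θ * (lam * θ ^ n) = shiftOp f e n := by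
    filter_upwards [hQa] with n hn
    have h2 := congrArg (algebraMap ℚ ℝ) hn
    simp only [map_shiftOp, map_intCast, map_zero] at h2
    rw [ha, map_sub, Pi.sub_apply, shiftOp_geom, sub_eq_zero] at h2
    exact h2
  have hfθ : f.eval θ = 0 := by
    set Bf := ∑ j ∈ range (f.natDegree + 1), ‖f.coeff j‖ * B
    have h4 : |f.eval θ * lam| ≤ 0 := ge_of_tendsto
      ((tendsto_pow_atTop_atTop_of_one_lt hθ).const_div_atTop Bf) (hfe.mono fun n hn => by
        have hθn : (0 : ℝ) < θ ^ n := pow_pos (by linarith) n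
        rw [le_div_iff₀ hθn, ← abs_of_pos hθn, ← abs_mul, mul_assoc, hn]
        exact norm_shiftOp_le f (fun k => by simpa [he] using hB k) n)
    exact (mul_eq_zero.1 (abs_nonpos_iff.1 h4)).resolve_right hlam
  have he0 : ∀ᶠ n in atTop, shiftOp f e n = 0 := by
    filter_upwards [hfe] with n hn
    rw [← hn, hfθ, zero_mul]
  have hQθ : aeval θ Q = 0 := by rw [← eval_map_algebraMap, ← hf, hfθ]
  refine ⟨hint, fun z hz hne => ?_, ?_⟩
  · -- another root outside the disc shortens the recurrence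
    by_contra hbig
    push Not at hbig
    set F := Q.map (algebraMap ℚ ℂ) with hF
    have hFθ : F.eval (θ : ℂ) = 0 := by
      rw [hF, eval_map_algebraMap, show (θ : ℂ) = algebraMap ℝ ℂ θ from rfl,
        aeval_algebraMap_apply, hQθ, map_zero]
    have hFz : F.eval z = 0 := by
      rw [hF, eval_map_algebraMap]
      obtain ⟨T, hT⟩ := minpoly.dvd ℚ θ hQθ
      rw [hT, minpoly.isIntegrallyClosed_eq_field_fractions' ℚ hint, map_mul,
        aeval_map_algebraMap, hz, zero_mul]
    set g := F /ₘ (X - C z) with hg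
    have hfg : (X - C z) * g = F := mul_divByMonic_eq_iff_isRoot.2 hFz
    have hgθ : g.eval (θ : ℂ) = 0 := by
      rw [← hfg, eval_mul, eval_sub, eval_X, eval_C, mul_eq_zero, sub_eq_zero] at hFθ
      exact hFθ.resolve_left (Ne.symm hne)
    have hgm : g.Monic := (monic_X_sub_C z).of_mul_monic_left (hfg ▸ hQ.map _)
    set ec : ℕ → ℂ := fun n => (e n : ℂ) with hec
    have hu : ∀ᶠ n in atTop, shiftOp g ec n = 0 := by
      refine eventually_zero_of_bounded_geometric hbig
        (norm_shiftOp_le g (B := B) fun k => ?_) ?_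
      · simpa only [hec, Complex.norm_real, Real.norm_eq_abs] using hB k
      · filter_upwards [he0] with n hn
        rw [← shiftOp_mul, hfg]
        have h2 := congrArg Complex.ofRealHom hn
        rw [map_shiftOp, hf, Polynomial.map_map, map_zero] at h2
        rwa [hF, show algebraMap ℚ ℂ = Complex.ofRealHom.comp (algebraMap ℚ ℝ) from
          RingHom.ext_rat _ _]
    have hga : ∀ᶠ n in atTop, shiftOp g (fun k => (a k : ℂ)) n = 0 := by
      filter_upwards [hu] with n hn
      rw [show (fun k => (a k : ℂ)) = (fun k => (lam : ℂ) * (θ : ℂ) ^ k) - ec by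
        funext k; simp [hec, he], map_sub, Pi.sub_apply, shiftOp_geom, hgθ, zero_mul, hn,
        sub_zero]
    obtain ⟨P, hP, hPd, hPa⟩ := exists_rat_annihilator hgm hga
    have h1 := hmin P hP hPa
    have h2 : F.natDegree = g.natDegree + 1 := by
      rw [← hfg, (monic_X_sub_C z).natDegree_mul hgm, natDegree_X_sub_C, add_comm]
    rw [hF, hQ.natDegree_map] at h2
    omega
  · set t : ℚ⟮θ⟯ := IntermediateField.AdjoinSimple.gen ℚ θ with ht
    have hcoe : algebraMap ℚ⟮θ⟯ ℝ t = θ := IntermediateField.AdjoinSimple.algebraMap_gen ℚ θ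
    set FK := Q.map (algebraMap ℚ ℚ⟮θ⟯) with hFK
    have hmap : FK.map (algebraMap ℚ⟮θ⟯ ℝ) = f := by
      rw [hFK, hf, Polynomial.map_map, ← IsScalarTower.algebraMap_eq]
    have hKt : FK.IsRoot t := by
      refine (algebraMap ℚ⟮θ⟯ ℝ).injective ?_
      rw [map_zero, ← eval_map_apply, hmap, hcoe, hfθ]
    set HK := FK /ₘ (X - C t) with hHK
    set H := HK.map (algebraMap ℚ⟮θ⟯ ℝ) with hH
    have hfK : (X - C t) * HK = FK := mul_divByMonic_eq_iff_isRoot.2 hKt
    have hfH : (X - C θ) * H = f := by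
      rw [hH, ← hmap, ← hfK, Polynomial.map_mul, Polynomial.map_sub, Polynomial.map_X,
        Polynomial.map_C, hcoe]
    have hu : ∀ᶠ n in atTop, shiftOp H e n = 0 := by
      refine eventually_zero_of_bounded_geometric (β := θ)
        (hθ.trans_le (Real.le_norm_self θ))
        (norm_shiftOp_le H (B := B) fun k => by simpa [he] using hB k) ?_
      filter_upwards [he0] with n hn
      rwa [← shiftOp_mul, hfH]
    have hHa : ∀ᶠ n in atTop, shiftOp H (fun k => (a k : ℝ)) n = H.eval θ * (lam * θ ^ n) := by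
      filter_upwards [hu] with n hn
      rw [ha, map_sub, Pi.sub_apply, shiftOp_geom, hn, sub_zero]
    have hne : H.eval θ ≠ 0 := fun h0 => by
      have hHm : HK.Monic := (monic_X_sub_C t).of_mul_monic_left (hfK ▸ hQ.map _)
      obtain ⟨P, hP, hPd, hPa⟩ := exists_rat_annihilator (a := a) hHm (hHa.mono fun n hn => by
        refine (algebraMap ℚ⟮θ⟯ ℝ).injective ?_
        rw [map_shiftOp, map_zero, ← hH]
        simp only [map_intCast]
        rw [hn, h0, zero_mul])
      have h1 := hmin P hP hPa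
      have h2 : FK.natDegree = HK.natDegree + 1 := by
        rw [← hfK, (monic_X_sub_C t).natDegree_mul hHm, natDegree_X_sub_C, add_comm]
      rw [hFK, hQ.natDegree_map] at h2
      omega
    obtain ⟨n, hn⟩ := hHa.exists
    have hmem : H.eval θ ∈ ℚ⟮θ⟯ := by
      have h := eval_map_apply (p := HK) (algebraMap ℚ⟮θ⟯ ℝ) t
      rw [hcoe, ← hH] at h
      rw [h]
      exact (HK.eval t).2
    have h2 : shiftOp H (fun k => (a k : ℝ)) n ∈ ℚ⟮θ⟯ := by
      rw [shiftOp_apply]
      refine sum_mem fun j _ => mul_mem ?_ (intCast_mem _ _)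
      rw [hH, coeff_map]
      exact (HK.coeff j).2
    have hθn : θ ^ n ≠ 0 := pow_ne_zero _ (by linarith)
    have h3 : lam = shiftOp H (fun k => (a k : ℝ)) n * (H.eval θ * θ ^ n)⁻¹ := by
      rw [hn]; field_simp
    rw [h3]
    exact mul_mem h2 (inv_mem (mul_mem hmem (pow_mem
      (IntermediateField.mem_adjoin_simple_self ℚ θ) _)))

end FA.DubickasGap

end
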