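import Mathlib.Order.LiminfLimsup
import Mathlib.Topology.Order.LiminfLimsup
import Mathlib.Topology.Algebra.Order.Floor
import Fermat.Agent.DubickasGap.Bounded

/-!
# The theorem of Dubickas

For a root `θ` of `G ∈ ℤ[X]` of length `L`, if the fractional parts of `λ θ ^ n` oscillate by less
than `1 / L` the integers `∑ g_j ⌊λ θ ^ (n + j)⌋` stay in an interval of length below one, hence are
eventually constant: the integer parts are recurrent at bounded distance from `λ θ ^ n`.
-/

set_option autoImplicit false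

noncomputable section

open Finset Polynomial Filter Topology
open scoped IntermediateField

namespace FA.DubickasGap

open FA.PisotCriterion

variable {θ lam : ℝ}

/-- **The theorem of Dubickas.** -/
theorem pisot_or_salem_of_small_gap (hθ : 1 < θ) (hlam : lam ≠ 0) {G : ℤ[X]} (hG0 : G ≠ 0)
    (hG : aeval θ G = 0)
    (hgap : limsup (fun n : ℕ => Int.fract (lam * θ ^ n)) atTop -
      liminf (fun n : ℕ => Int.fract (lam * θ ^ n)) atTop <
        1 / ∑ j ∈ range (G.natDegree + 1), |(G.coeff j : ℝ)|) :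
    IsIntegral ℤ θ ∧ (∀ z : ℂ, aeval z (minpoly ℤ θ) = 0 → z ≠ (θ : ℂ) → ‖z‖ ≤ 1) ∧
      lam ∈ ℚ⟮θ⟯ := by
  set f : ℕ → ℝ := fun n => Int.fract (lam * θ ^ n) with hf
  set k : ℕ → ℤ := fun n => ⌊lam * θ ^ n⌋ with hk
  have hbu : IsBoundedUnder (· ≤ ·) atTop f :=
    isBoundedUnder_of ⟨1, fun n => (Int.fract_lt_one _).le⟩
  have hbl : IsBoundedUnder (· ≥ ·) atTop f :=
    isBoundedUnder_of ⟨0, fun n => Int.fract_nonneg _⟩
  set L : ℝ := ∑ j ∈ range (G.natDegree + 1), |(G.coeff j : ℝ)| with hL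
  set A := liminf f atTop
  set B := limsup f atTop
  have hAB : A ≤ B := liminf_le_limsup hbu hbl
  have hL0 : 0 < L := one_div_pos.1 ((sub_nonneg.2 hAB).trans_lt hgap)
  set ε : ℝ := (1 / L - (B - A)) / 4 with hε
  have hε0 : 0 < ε := by rw [hε]; linarith
  obtain ⟨N, hN⟩ := eventually_atTop.1 ((eventually_lt_of_limsup_lt
    (show B < B + ε by linarith) hbu).and (eventually_lt_of_lt_liminf
    (show A - ε < A by linarith) hbl))
  -- the integers `∑ g_j k (n + j)` are eventually constant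
  set F := G.map (Int.castRingHom ℝ) with hF
  have hFθ : F.eval θ = 0 := by rw [hF, eval_map, ← algebraMap_int_eq, ← aeval_def, hG]
  have hFd : F.natDegree < G.natDegree + 1 := Nat.lt_succ_of_le natDegree_map_le
  set c : ℝ := (A + B) / 2 with hc
  have hsum : ∀ n, N ≤ n → |(shiftOp G k n : ℝ) + c * F.eval 1| ≤ L * ((B - A) / 2 + ε) := by
    intro n hn
    have h1 : (shiftOp G k n : ℝ) = shiftOp F (fun i => (k i : ℝ)) n :=
      map_shiftOp (Int.castRingHom ℝ) G k n
    have hkf : (fun i => (k i : ℝ)) = (fun i => lam * θ ^ i) - f := by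
      funext i; simp only [Pi.sub_apply, hk, hf, Int.fract]; ring
    rw [h1, hkf, map_sub, Pi.sub_apply, shiftOp_geom, hFθ, zero_mul, zero_sub,
      shiftOp_apply_of_lt hFd, eval_eq_sum_range' hFd, Finset.mul_sum, ← Finset.sum_neg_distrib,
      ← Finset.sum_add_distrib, hL, Finset.sum_mul]
    refine (Finset.abs_sum_le_sum_abs _ _).trans (Finset.sum_le_sum fun j _ => ?_)
    rw [show -(F.coeff j * f (n + j)) + c * (F.coeff j * 1 ^ j) =
      F.coeff j * (c - f (n + j)) by rw [one_pow]; ring, abs_mul, hF, coeff_map, eq_intCast]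
    refine mul_le_mul_of_nonneg_left ?_ (abs_nonneg _)
    obtain ⟨h2, h3⟩ := hN (n + j) (le_add_right hn)
    rw [abs_le, hc]
    constructor <;> linarith
  have hsmall : 2 * (L * ((B - A) / 2 + ε)) < 1 := by
    have h1 : L * (1 / L) = 1 := mul_one_div_cancel hL0.ne'
    rw [hε]
    nlinarith [mul_pos hL0 (sub_pos.2 hgap)]
  have hconst : ∀ n, N ≤ n → shiftOp G k (n + 1) = shiftOp G k n := by
    intro n hn
    refine sub_eq_zero.1 (Int.abs_lt_one_iff.1 ?_)
    have h1 := abs_le.1 (hsum n hn)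
    have h2 := abs_le.1 (hsum (n + 1) (le_add_right hn))
    have h3 : |((shiftOp G k (n + 1) - shiftOp G k n : ℤ) : ℝ)| < ((1 : ℤ) : ℝ) := by
      push_cast
      rw [abs_lt]
      constructor <;> linarith [h1.1, h1.2, h2.1, h2.2]
    exact_mod_cast h3
  -- hence the integer parts are recurrent
  set GQ := G.map (Int.castRingHom ℚ) with hGQ
  have hc0 : GQ.leadingCoeff ≠ 0 :=
    leadingCoeff_ne_zero.2 ((Polynomial.map_ne_zero_iff Int.cast_injective).2 hG0)
  refine pisot_or_salem_of_bounded (a := k) (B := 1) hθ hlam (fun n => ?_)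
    (R := (X - C 1) * (C GQ.leadingCoeff⁻¹ * GQ))
    ((monic_X_sub_C 1).mul (monic_C_mul_of_mul_leadingCoeff_eq_one (inv_mul_cancel₀ hc0)))
    (eventually_atTop.2 ⟨N, fun n hn => ?_⟩)
  · rw [show lam * θ ^ n - k n = Int.fract (lam * θ ^ n) from Int.self_sub_floor _, abs_of_nonneg
      (Int.fract_nonneg _)]
    exact (Int.fract_lt_one _).le
  · have h2 : ∀ m, shiftOp GQ (fun i => (k i : ℚ)) m = (shiftOp G k m : ℚ) := fun m =>
      (map_shiftOp (Int.castRingHom ℚ) G k m).symm
    rw [shiftOp_mul, shiftOp_X_sub_C, shiftOp_mul, ← monomial_zero_left, shiftOp_monomial,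
      shiftOp_monomial, add_zero, add_zero, h2, h2, hconst n hn, one_mul, sub_self]

end FA.DubickasGap

end
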