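import Mathlib.Analysis.SpecialFunctions.Log.Basic
import Mathlib.Analysis.SpecificLimits.Normed
import Fermat.Agent.PisotCriterion.Converse
import Fermat.Agent.DubickasGap.Bounded

/-!
# Pisot's sufficient condition

If `λ ≥ 1` and all `λ θ ^ n` are within about `1 / log λ` of integers `a n`, the pigeonhole
principle gives small integers `w_j` with `∑ w_j a j = 0`; as `a (n + 1) - θ a n` is small, so are
all `∑ w_j a (n + j)`, a recurrence at bounded distance from `λ θ ^ n`.
-/

set_option autoImplicit false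

noncomputable section

open Finset Polynomial Filter Topology
open scoped IntermediateField

namespace FA.DubickasGap

open FA.PisotCriterion

variable {θ lam : ℝ}

/-- Small integers orthogonal to the first terms of a sequence of naturals. -/
theorem exists_small_orthogonal (b : ℕ → ℕ) {s A : ℕ}
    (h : A * (∑ j : Fin (s + 1), b j) + 1 < (A + 1) ^ (s + 1)) :
    ∃ w : Fin (s + 1) → ℤ, w ≠ 0 ∧ (∀ j, |w j| ≤ (A : ℤ)) ∧
      ∑ j : Fin (s + 1), w j * (b j : ℤ) = 0 := by
  obtain ⟨v, -, v', -, hne, heq⟩ := Finset.exists_ne_map_eq_of_card_lt_of_maps_to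
    (s := (univ : Finset (Fin (s + 1) → Fin (A + 1))))
    (t := range (A * (∑ j : Fin (s + 1), b j) + 1))
    (f := fun v => ∑ j : Fin (s + 1), (v j : ℕ) * b j) (by simpa using h) (fun v _ => by
      simp only [coe_range, Set.mem_Iio]
      refine Nat.lt_succ_of_le ?_
      rw [Finset.mul_sum]
      exact Finset.sum_le_sum fun j _ => Nat.mul_le_mul_right _ (Nat.le_of_lt_succ (v j).2))
  refine ⟨fun j => (v j : ℤ) - (v' j : ℤ), fun h0 => hne (funext fun j => Fin.ext ?_),
    fun j => ?_, ?_⟩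
  · have := congrFun h0 j
    simp only [Pi.zero_apply] at this
    omega
  · have := (v j).2
    have := (v' j).2
    simp only [abs_le]
    constructor <;> omega
  · simp only [sub_mul, Finset.sum_sub_distrib, sub_eq_zero]
    exact_mod_cast heq

/-- **Pisot's sufficient condition.** -/
theorem pisot_or_salem_of_small_distance (hθ : 1 < θ) (hlam : 1 ≤ lam)
    (h : ∀ n : ℕ, |lam * θ ^ n - round (lam * θ ^ n)| ≤
      1 / (2 * Real.exp 1 * θ * (θ + 1) * (3 + Real.log lam))) :
    IsIntegral ℤ θ ∧ (∀ z : ℂ, aeval z (minpoly ℤ θ) = 0 → z ≠ (θ : ℂ) → ‖z‖ ≤ 1) ∧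
      lam ∈ ℚ⟮θ⟯ := by
  classical
  have hθ0 : 0 < θ := by linarith
  set x : ℕ → ℝ := fun n => lam * θ ^ n with hx
  have hx1 : ∀ n, 1 ≤ x n := fun n => one_le_mul_of_one_le_of_one_le hlam (one_le_pow₀ hθ.le)
  set a : ℕ → ℤ := fun n => round (x n) with ha
  have ha0 : ∀ n, 1 ≤ a n := fun n => by
    have h1 := abs_le.1 (abs_sub_round (x n))
    have h2 : (0 : ℝ) < (round (x n) : ℝ) := by linarith [hx1 n]
    exact Int.cast_pos.1 h2
  have ha1 : ∀ n, (a n : ℝ) ≤ 3 / 2 * x n := fun n => by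
    have h1 := abs_le.1 (abs_sub_round (x n))
    simp only [ha]
    linarith [hx1 n]
  set b : ℕ → ℕ := fun n => (a n).toNat with hb
  have hab : ∀ n, (b n : ℤ) = a n := fun n => Int.toNat_of_nonneg (by linarith [ha0 n])
  -- the parameters of the pigeonhole
  have hlog : 0 ≤ Real.log lam := Real.log_nonneg hlam
  set E : ℝ := 2 * Real.exp 1 * θ with hE
  have hE1 : 1 < E := by
    have := Real.add_one_le_exp (1 : ℝ)
    rw [hE]; nlinarith
  set s : ℕ := ⌊Real.log lam⌋₊ + 2 with hs
  set A : ℕ := ⌈E⌉₊ - 1 with hA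
  have hceil : 1 ≤ ⌈E⌉₊ := Nat.one_le_iff_ne_zero.2 (Nat.ceil_pos.2 (by linarith)).ne'
  have hA1 : E ≤ (A : ℝ) + 1 := by
    rw [hA, Nat.cast_sub hceil, Nat.cast_one, sub_add_cancel]
    exact Nat.le_ceil E
  have hA2 : (A : ℝ) < E := by
    rw [hA, Nat.cast_sub hceil, Nat.cast_one]
    linarith [Nat.ceil_lt_add_one (show (0 : ℝ) ≤ E by linarith)]
  have hcount : A * (∑ j : Fin (s + 1), b j) + 1 < (A + 1) ^ (s + 1) := by
    set S := ∑ j : Fin (s + 1), b j with hS
    have hS1 : 1 ≤ S := (show 1 ≤ b (0 : Fin (s + 1)) by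
      have := ha0 0; simp only [hb, Fin.val_zero]; omega).trans
        (Finset.single_le_sum (f := fun j : Fin (s + 1) => b j) (fun j _ => Nat.zero_le _)
          (mem_univ 0))
    have hSle : (S : ℝ) ≤ (s + 1 : ℕ) * (3 / 2 * (lam * θ ^ s)) := by
      have h1 : ∀ j ∈ (univ : Finset (Fin (s + 1))), (b j : ℝ) ≤ 3 / 2 * (lam * θ ^ s) := by
        intro j _
        rw [show ((b j : ℕ) : ℝ) = (a j : ℝ) by exact_mod_cast hab j]
        refine (ha1 j).trans ?_
        simp only [hx]
        gcongr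
        · exact hθ.le
        · exact Nat.le_of_lt_succ j.2
      rw [hS, Nat.cast_sum]
      simpa using (Finset.sum_le_card_nsmul _ _ _ h1)
    have h2 : (3 / 2 : ℝ) * (s + 1 : ℕ) * lam < 2 ^ s * Real.exp 1 ^ s := by
      have hs2 : ((s + 1 : ℕ) : ℝ) ≤ 2 ^ s := by
        exact_mod_cast (Nat.succ_le_of_lt s.lt_two_pow_self)
      have he : 2 * lam ≤ Real.exp 1 ^ s := by
        rw [← Real.exp_nat_mul, mul_one]
        refine le_trans ?_ (Real.exp_le_exp.2
          (show Real.log lam + 1 ≤ (s : ℝ) by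
            rw [hs]; push_cast; linarith [Nat.lt_floor_add_one (Real.log lam)]))
        rw [Real.exp_add, Real.exp_log (by linarith)]
        nlinarith [Real.add_one_le_exp (1 : ℝ)]
      have : (0 : ℝ) < (s + 1 : ℕ) := by positivity
      nlinarith [mul_le_mul hs2 he (by linarith) (by positivity)]
    have h3 : (S : ℝ) < ((A : ℝ) + 1) ^ s := by
      refine (hSle.trans_lt ?_).trans_le (pow_le_pow_left₀ (by linarith) hA1 s)
      rw [hE, mul_pow, mul_pow]
      have := mul_lt_mul_of_pos_right h2 (pow_pos hθ0 s)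
      linarith
    have h4 : (A + 1) * S < (A + 1) ^ (s + 1) := by
      rw [pow_succ']
      exact Nat.mul_lt_mul_of_pos_left (by exact_mod_cast h3) (Nat.succ_pos A)
    rw [add_mul, one_mul] at h4
    omega
  obtain ⟨w, hw0, hwA, hwsum⟩ := exists_small_orthogonal b hcount
  -- the recurrence propagates
  set u : ℕ → ℤ := fun n => ∑ j : Fin (s + 1), w j * a (n + j) with hu
  set δ : ℝ := 1 / (E * (θ + 1) * (3 + Real.log lam)) with hδ
  have hδ0 : 0 < δ := by positivity
  have hstep : ∀ m, |(a (m + 1) : ℝ) - θ * a m| ≤ (θ + 1) * δ := fun m => by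
    have h1 := abs_le.1 (h m)
    have h2 := abs_le.1 (h (m + 1))
    simp only [ha, hx, hδ, hE]
    rw [pow_succ, ← mul_assoc] at h2 ⊢
    rw [abs_le]
    constructor <;> nlinarith
  have hu0 : ∀ n, u n = 0 := by
    intro n
    induction n with
    | zero =>
      simp only [hu, Nat.zero_add]
      simpa only [hab] using hwsum
    | succ n ih =>
      have hr : |(u (n + 1) : ℝ) - θ * u n| ≤ (s + 1 : ℕ) * ((A : ℝ) * ((θ + 1) * δ)) := by
        simp only [hu]
        push_cast
        rw [Finset.mul_sum, ← Finset.sum_sub_distrib]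
        refine (Finset.abs_sum_le_sum_abs _ _).trans ((Finset.sum_le_card_nsmul _ _
          ((A : ℝ) * ((θ + 1) * δ)) fun j _ => ?_).trans_eq (by simp))
        rw [show n + 1 + (j : ℕ) = n + j + 1 by ring,
          show (w j : ℝ) * (a (n + j + 1) : ℝ) - θ * ((w j : ℝ) * (a (n + j) : ℝ)) =
            (w j : ℝ) * ((a (n + j + 1) : ℝ) - θ * a (n + j)) by ring, abs_mul]
        exact mul_le_mul (by exact_mod_cast hwA j) (hstep _) (abs_nonneg _) (Nat.cast_nonneg _)
      rw [ih, Int.cast_zero, mul_zero, sub_zero] at hr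
      have hsl : ((s + 1 : ℕ) : ℝ) ≤ 3 + Real.log lam := by
        rw [hs]; push_cast; linarith [Nat.floor_le hlog]
      have hlt : ((s + 1 : ℕ) : ℝ) * ((A : ℝ) * ((θ + 1) * δ)) < 1 := by
        calc _ ≤ (3 + Real.log lam) * ((A : ℝ) * ((θ + 1) * δ)) :=
              mul_le_mul_of_nonneg_right hsl (by positivity)
          _ < (3 + Real.log lam) * (E * ((θ + 1) * δ)) := by
              have : 0 < (θ + 1) * δ := by positivity
              gcongr
          _ = 1 := by
              rw [hδ]; field_simp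
      exact Int.abs_lt_one_iff.1 (by exact_mod_cast hr.trans_lt hlt)
  set G : ℚ[X] := ∑ j : Fin (s + 1), monomial (j : ℕ) (w j : ℚ) with hG
  have hcoeff : ∀ j : Fin (s + 1), G.coeff (j : ℕ) = w j := fun j => by
    simp [hG, finsetSum_coeff, coeff_monomial, Fin.val_inj]
  have hG0 : G ≠ 0 := fun h0 => hw0 (funext fun j => by
    have := hcoeff j
    rw [h0, coeff_zero] at this
    exact_mod_cast this.symm)
  have hGd : G.natDegree < s + 1 := Nat.lt_succ_of_le (natDegree_sum_le_of_forall_le _ _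
    fun j _ => (natDegree_monomial_le _).trans (Nat.le_of_lt_succ j.2))
  refine pisot_or_salem_of_bounded (a := a) (B := 1 / 2) hθ (by linarith : lam ≠ 0)
    (fun n => abs_sub_round _) (R := C G.leadingCoeff⁻¹ * G)
    (monic_C_mul_of_mul_leadingCoeff_eq_one (inv_mul_cancel₀ (leadingCoeff_ne_zero.2 hG0)))
    (Eventually.of_forall fun n => ?_)
  rw [shiftOp_mul, ← monomial_zero_left, shiftOp_monomial, add_zero,
    shiftOp_apply_of_lt hGd, Finset.sum_range]
  simp only [hcoeff]
  have := congrArg (fun z : ℤ => (z : ℚ)) (hu0 n)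
  simp only [hu] at this
  push_cast at this
  rw [this, mul_zero]

/-- Every Pisot number meets the condition. -/
theorem exists_small_distance (h : IsPisot θ) :
    ∃ l : ℝ, 1 ≤ l ∧ ∀ n : ℕ, |l * θ ^ n - round (l * θ ^ n)| ≤
      1 / (2 * Real.exp 1 * θ * (θ + 1) * (3 + Real.log l)) := by
  obtain ⟨C, r, hC, hr0, hr1, hle⟩ := exists_round_pow_le h
  have hθ := h.1
  set K := 2 * Real.exp 1 * θ * (θ + 1) with hK
  have hlim : Tendsto (fun N : ℕ => C * K * (3 * r ^ N + Real.log θ * (N * r ^ N))) atTop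
      (𝓝 (C * K * (3 * 0 + Real.log θ * 0))) :=
    (((tendsto_pow_atTop_nhds_zero_of_lt_one hr0 hr1).const_mul 3).add
      ((tendsto_self_mul_const_pow_of_lt_one hr0 hr1).const_mul _)).const_mul _
  simp only [mul_zero, add_zero] at hlim
  obtain ⟨N, hN⟩ := (hlim.eventually (eventually_lt_nhds one_pos)).exists
  refine ⟨θ ^ N, one_le_pow₀ hθ.le, fun n => ?_⟩
  rw [← pow_add, Real.log_pow]
  have hlogθ : 0 ≤ Real.log θ := Real.log_nonneg hθ.le
  have hpos : 0 < K * (3 + N * Real.log θ) := by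
    have : 0 < θ := by linarith
    positivity
  refine ((hle (N + n)).trans (mul_le_mul_of_nonneg_left
    (pow_le_pow_of_le_one hr0 hr1.le (Nat.le_add_right N n)) hC)).trans ?_
  rw [le_div_iff₀ hpos]
  nlinarith

end FA.DubickasGap

end
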