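import Mathlib.RingTheory.Trace.Basic
import Mathlib.Analysis.Complex.Polynomial.Basic
import Mathlib.NumberTheory.NumberField.CanonicalEmbedding.ConvexBody
import Fermat.Agent.DubickasGap.Bounded

/-!
# Salem's characterisation of Pisot and Salem numbers

If all `λ θ ^ n` are nearer to integers than `1 / L`, `L` the length of a polynomial of `θ`, the
integers satisfy its recurrence. Conversely Minkowski gives a nonzero integer `β` of `ℚ(θ)` small at
every other embedding, and `β θ ^ n` is then uniformly near its trace.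
-/

set_option autoImplicit false

noncomputable section

open Finset Polynomial Filter Topology NumberField
open scoped IntermediateField NNReal ENNReal

namespace FA.DubickasGap

open FA.PisotCriterion

variable {θ lam : ℝ}

/-- An integer of a number field which is small at all but one place. -/
theorem exists_integer_small {K : Type*} [Field K] [NumberField K] (w₁ : InfinitePlace K)
    {δ : ℝ} (hδ : 0 < δ) :
    ∃ β : 𝓞 K, β ≠ 0 ∧ ∀ w : InfinitePlace K, w ≠ w₁ → w β < δ := by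
  obtain ⟨B, hB, -⟩ := ENNReal.lt_iff_exists_nnreal_btwn.1
    (mixedEmbedding.minkowskiBound_lt_top K ↑1)
  obtain ⟨g, hg, hgB⟩ := mixedEmbedding.adjust_f K (f := fun _ => δ.toNNReal) (w₁ := w₁) B
    fun _ _ => (Real.toNNReal_pos.2 hδ).ne'
  obtain ⟨β, hβ, hlt⟩ := mixedEmbedding.exists_ne_zero_mem_ringOfIntegers_lt K (f := g) (by
    rw [mixedEmbedding.convexBodyLT_volume, hgB]
    refine hB.trans_le (le_mul_of_one_le_left zero_le ?_)
    exact_mod_cast mixedEmbedding.one_le_convexBodyLTFactor K)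
  refine ⟨β, hβ, fun w hw => ?_⟩
  have h1 := hlt w
  rw [hg w hw, Real.coe_toNNReal δ hδ.le] at h1
  exact h1

/-- Integers uniformly near `λ θ ^ n` satisfy the recurrence of an algebraic `θ`. -/
theorem pisot_or_salem_of_uniformly_small (hθ : 1 < θ) {G : ℤ[X]} (hG0 : G ≠ 0)
    (hG : aeval θ G = 0) (hlam : lam ≠ 0)
    (h : ∀ n : ℕ, |lam * θ ^ n - round (lam * θ ^ n)| *
      ∑ j ∈ range (G.natDegree + 1), |(G.coeff j : ℝ)| < 1) :
    IsIntegral ℤ θ ∧ (∀ z : ℂ, aeval z (minpoly ℤ θ) = 0 → z ≠ (θ : ℂ) → ‖z‖ ≤ 1) ∧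
      lam ∈ ℚ⟮θ⟯ := by
  set a : ℕ → ℤ := fun n => round (lam * θ ^ n) with ha
  set e : ℕ → ℝ := fun n => lam * θ ^ n - a n with he
  set F := G.map (Int.castRingHom ℝ) with hF
  have hFd : F.natDegree < G.natDegree + 1 := Nat.lt_succ_of_le natDegree_map_le
  have hFθ : F.eval θ = 0 := by rw [hF, eval_map, ← algebraMap_int_eq, ← aeval_def, hG]
  have h0 : ∀ n, shiftOp G a n = 0 := fun n => by
    have h1 : (shiftOp G a n : ℝ) = -shiftOp F e n := by
      rw [show (shiftOp G a n : ℝ) = shiftOp F (fun i => (a i : ℝ)) n from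
          map_shiftOp (Int.castRingHom ℝ) G a n,
        show (fun i => (a i : ℝ)) = (fun i => lam * θ ^ i) - e by funext i; simp [he],
        map_sub, Pi.sub_apply, shiftOp_geom, hFθ, zero_mul, zero_sub]
    obtain ⟨j₀, -, hj₀⟩ := Finset.exists_max_image (range (G.natDegree + 1))
      (fun j => |e (n + j)|) ⟨0, by simp⟩
    refine Int.abs_lt_one_iff.1 ?_
    have h2 : |(shiftOp G a n : ℝ)| < 1 := by
      rw [h1, abs_neg, shiftOp_apply_of_lt hFd]
      refine (Finset.abs_sum_le_sum_abs _ _).trans_lt (lt_of_le_of_lt ?_ (h (n + j₀)))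
      rw [Finset.mul_sum]
      refine Finset.sum_le_sum fun j hj => ?_
      rw [abs_mul, hF, coeff_map, eq_intCast, mul_comm]
      exact mul_le_mul_of_nonneg_right (hj₀ j hj) (abs_nonneg _)
    exact_mod_cast h2
  have hc : (G.map (Int.castRingHom ℚ)).leadingCoeff ≠ 0 :=
    leadingCoeff_ne_zero.2 ((Polynomial.map_ne_zero_iff Int.cast_injective).2 hG0)
  refine pisot_or_salem_of_bounded (a := a) (B := 1 / 2) hθ hlam (fun n => abs_sub_round _)
    (R := C (G.map (Int.castRingHom ℚ)).leadingCoeff⁻¹ * G.map (Int.castRingHom ℚ))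
    (monic_C_mul_of_mul_leadingCoeff_eq_one (inv_mul_cancel₀ hc))
    (Eventually.of_forall fun n => ?_)
  rw [shiftOp_mul, ← monomial_zero_left, shiftOp_monomial, add_zero,
    show (fun k => (a k : ℚ)) = fun k => Int.castRingHom ℚ (a k) from rfl, ← map_shiftOp, h0,
    map_zero, mul_zero]

/-- At a Pisot or Salem number some multiples of the powers are uniformly near the integers. -/
theorem exists_uniformly_small (hint : IsIntegral ℤ θ)
    (hconj : ∀ z : ℂ, aeval z (minpoly ℤ θ) = 0 → z ≠ (θ : ℂ) → ‖z‖ ≤ 1) {ε : ℝ} (hε : 0 < ε) :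
    ∃ l : ℝ, l ≠ 0 ∧ ∀ n : ℕ, |l * θ ^ n - round (l * θ ^ n)| < ε := by
  classical
  have hx : IsIntegral ℚ θ := hint.tower_top
  have : FiniteDimensional ℚ ℚ⟮θ⟯ := IntermediateField.adjoin.finiteDimensional hx
  have : NumberField ℚ⟮θ⟯ := ⟨⟩
  set t : ℚ⟮θ⟯ := IntermediateField.AdjoinSimple.gen ℚ θ with ht
  set σ₀ : ℚ⟮θ⟯ →ₐ[ℚ] ℂ := (Complex.ofRealAm.restrictScalars ℚ).comp ℚ⟮θ⟯.val with hσ₀
  have hσ₀t : σ₀ t = (θ : ℂ) := rfl
  set E := (univ : Finset (ℚ⟮θ⟯ →ₐ[ℚ] ℂ)).erase σ₀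
  set δ := ε / (#E + 1) with hδ
  have hδ0 : 0 < δ := by positivity
  obtain ⟨β, hβ0, hβ⟩ := exists_integer_small (InfinitePlace.mk σ₀.toRingHom) hδ0
  set x : ℚ⟮θ⟯ := (β : ℚ⟮θ⟯) with hxdef
  refine ⟨(x : ℝ), fun h0 => ?_, fun n => ?_⟩
  · have hx0 : x = 0 := Subtype.ext h0
    exact hβ0 (RingOfIntegers.ext hx0)
  have hroot : aeval t (minpoly ℤ θ) = 0 := by
    refine (algebraMap ℚ⟮θ⟯ ℝ).injective ?_
    rw [map_zero, ← aeval_algebraMap_apply]
    exact minpoly.aeval ℤ θ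
  have hsmall : ∀ σ ∈ E, ‖σ (x * t ^ n)‖ ≤ δ := by
    intro σ hσ
    have hne : σ ≠ σ₀ := (Finset.mem_erase.1 hσ).1
    have h1 : ‖σ x‖ < δ := by
      refine hβ (InfinitePlace.mk σ.toRingHom) fun heq => ?_
      rcases InfinitePlace.mk_eq_iff.1 heq with h | h
      · exact hne (AlgHom.coe_ringHom_injective h)
      · refine hne (AlgHom.ext fun y => ?_)
        have h2 := RingHom.congr_fun h y
        rw [ComplexEmbedding.conjugate_coe_eq] at h2
        have h3 := congrArg (starRingEnd ℂ) h2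
        rw [Complex.conj_conj] at h3
        exact h3.trans (Complex.conj_ofReal _)
    have h2 : ‖σ t‖ ≤ 1 := by
      refine hconj _ ?_ fun he => hne ?_
      · rw [show σ t = (σ.restrictScalars ℤ) t from rfl, aeval_algHom_apply, hroot, map_zero]
      · refine (IntermediateField.adjoin.powerBasis hx).algHom_ext ?_
        rw [IntermediateField.adjoin.powerBasis_gen, ← ht]
        exact he.trans hσ₀t.symm
    rw [map_mul, map_pow, norm_mul, norm_pow]
    exact (mul_le_of_le_one_right (norm_nonneg _) (pow_le_one₀ (norm_nonneg _) h2)).trans h1.le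
  have hti : IsIntegral ℤ (x * t ^ n) :=
    β.isIntegral_coe.mul (((isIntegral_algebraMap_iff (algebraMap ℚ⟮θ⟯ ℝ).injective).1 hint).pow n)
  obtain ⟨m, hm⟩ := IsIntegrallyClosed.isIntegral_iff.1
    (Algebra.isIntegral_trace (L := ℚ) (F := ℚ⟮θ⟯) hti)
  have htr := trace_eq_sum_embeddings (K := ℚ) (L := ℚ⟮θ⟯) ℂ (x := x * t ^ n)
  rw [← Finset.add_sum_erase _ _ (Finset.mem_univ σ₀), ← hm, algebraMap_int_eq, eq_intCast,
    map_intCast, map_mul σ₀, map_pow σ₀, hσ₀t, show σ₀ x = ((x : ℝ) : ℂ) from rfl] at htr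
  refine lt_of_le_of_lt (round_le _ m) ?_
  have e : |(x : ℝ) * θ ^ n - (m : ℝ)| = ‖∑ σ ∈ E, σ (x * t ^ n)‖ := by
    rw [← Real.norm_eq_abs, ← Complex.norm_real, ← norm_neg]
    congr 1
    push_cast
    linear_combination htr
  rw [e]
  refine (norm_sum_le_of_le _ hsmall).trans_lt ?_
  rw [Finset.sum_const, nsmul_eq_mul, hδ, mul_div_assoc', div_lt_iff₀ (by positivity)]
  linarith

/-- **Salem's characterisation.** -/
theorem pisot_or_salem_iff (hθ : 1 < θ) (halg : IsAlgebraic ℚ θ) :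
    (IsIntegral ℤ θ ∧ ∀ z : ℂ, aeval z (minpoly ℤ θ) = 0 → z ≠ (θ : ℂ) → ‖z‖ ≤ 1) ↔
      ∀ ε : ℝ, 0 < ε → ∃ l : ℝ, l ≠ 0 ∧ ∀ n : ℕ, |l * θ ^ n - round (l * θ ^ n)| < ε := by
  refine ⟨fun h ε hε => exists_uniformly_small h.1 h.2 hε, fun h => ?_⟩
  obtain ⟨G, hG0, hG⟩ := (IsFractionRing.isAlgebraic_iff ℤ ℚ ℝ).2 halg
  set L : ℝ := ∑ j ∈ range (G.natDegree + 1), |(G.coeff j : ℝ)|
  obtain ⟨l, hl, hsmall⟩ := h (1 / (L + 1)) (by positivity)
  obtain ⟨h1, h2, -⟩ := pisot_or_salem_of_uniformly_small hθ hG0 hG hl fun n => by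
    refine (mul_le_mul_of_nonneg_right (hsmall n).le (by positivity)).trans_lt ?_
    rw [div_mul_eq_mul_div, one_mul, div_lt_one (by positivity)]
    linarith
  exact ⟨h1, h2⟩

end FA.DubickasGap

end
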